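import Fermat.Agent.S15.Mod.Cen.Conc.K1
import Fermat.Agent.S15.Mod.D.Place
import Fermat.Agent.S15.Mod.Loc.Front
import Fermat.Agent.S15.Red.Fam

/-!
# S15 / MOD : the rational point `y = [(x) - (0)]` of `J₀(p)` attached to `(W, Q)`

`MOD-PT` (`D.exists_place`) + `LOC` (`Loc.gam_not_mem`, `Loc.div_gam_not_mem`, `Loc.jW_not_mem`) +
`CEN` (`Cen.mem_K1q_zero`, `Cen.mem_K1q_inf`) + `FIX` (`Cen.smul_place_eq`).
-/

set_option autoImplicit false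
set_option synthInstance.maxHeartbeats 400000

noncomputable section

namespace Fermat.Agent.S15.Mod

open AlgebraicCurve ModularCurve Fermat.Agent.GR Fermat.Agent.S17.FF
  Fermat.Agent.GR.S Fermat.Agent.S15.Red Fermat.Agent.S15.Cusp Fermat.Agent.S15.Mod.Cen
  Fermat.Agent.LP.EIS
open WeierstrassCurve WeierstrassCurve.Affine

/-- transport of a place of `FF Q̄ p` to `E = FF Q̄ p`. -/
theorem Top_transport {p : ℕ} [NeZero p] (E : IntermediateField Qb (LaurentSeries Qb))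
    (hE : E = FF Qb p) [IsFF Qb E] (j g : E) (hj : (j : LaurentSeries Qb) = jqModC Qb)
    (hg : (g : LaurentSeries Qb) = dS Qb p) (a b : Qb)
    (H : ∃ x : Place Qb (FF Qb p), 0 ≤ x.ord (GR.A.jF Qb p) ∧ val x (GR.A.jF Qb p) = a ∧
      x.ord (gF p p dvd_rfl) = 0 ∧ val x (gF p p dvd_rfl) = b) :
    ∃ x : Place Qb E, 0 ≤ x.ord j ∧ val x j = a ∧ x.ord g = 0 ∧ val x g = b := by
  subst hE
  obtain rfl : j = GR.A.jF Qb p := Subtype.ext hj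
  obtain rfl : g = gF p p dvd_rfl := Subtype.ext hg
  exact H

/-- `1728 Δ = c₄³ - c₆²`. -/
theorem Top_c₆_ne_zero (W : WeierstrassCurve ℤ) {ℓ : ℕ} (hℓ : ℓ.Prime) (hℓΔ : (ℓ : ℤ) ∣ W.Δ)
    (hℓc₄ : ¬ (ℓ : ℤ) ∣ W.c₄) : W.c₆ ≠ 0 := by
  intro h
  have h1 := W.c_relation
  rw [h] at h1
  obtain ⟨d, hd⟩ := hℓΔ
  have h2 : (ℓ : ℤ) ∣ W.c₄ ^ 3 := ⟨1728 * d, by rw [hd] at h1; linear_combination -h1⟩
  exact hℓc₄ ((Nat.prime_iff_prime_int.1 hℓ).dvd_of_dvd_pow h2)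

/-- the place attached to `(W, Q)`. -/
theorem Top_exists_place {p : ℕ} [NeZero p] (hp : p.Prime) (hp2 : p ≠ 2)
    (C : CuspData p (modularFunctionFieldBar p)) (W : WeierstrassCurve ℤ) (hΔ : W.Δ ≠ 0)
    (hc₄ : W.c₄ ≠ 0) (hc₆ : W.c₆ ≠ 0)
    (Q : ((W.map (Int.castRingHom ℚ))⁄(AlgebraicClosure ℚ)).Point) (hQ : addOrderOf Q = p) :
    ∃ x : Place Qb (modularFunctionFieldBar p), 0 ≤ x.ord C.j ∧ val x C.j = Loc.jW W ∧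
      x.ord C.g = 0 ∧ val x C.g = Loc.gam W p Q := by
  have H := D.exists_place (Loc.EQ W) (by rw [Loc.EQ_Δ]; exact_mod_cast hΔ)
    (by rw [Loc.EQ_c₄]; exact_mod_cast hc₄) (by rw [Loc.EQ_c₆]; exact_mod_cast hc₆) hp hp2 Q hQ p
    dvd_rfl
  rw [Loc.EQ_c₄, Loc.EQ_Δ] at H
  exact Top_transport (modularFunctionFieldBar p) (GR.S.bar_eq_FF p) C.j C.g C.coe_j C.coe_g _ _ H

/-- `val x (j^n / g) = (val x j)^n / val x g`.  (`val_mul`, induction, `val` of an inverse.) -/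
theorem Top_val_pow_div {Ω F : Type} [Field Ω] [IsAlgClosed Ω] [CharZero Ω] [Field F] [Algebra Ω F]
    [IsFF Ω F] (x : Place Ω F) {j g : F} (hj : 0 ≤ x.ord j) (hg0 : g ≠ 0) (hg : x.ord g = 0)
    (n : ℕ) : val x (j ^ n / g) = val x j ^ n / val x g := by
  have h1 : val x (1 : F) = 1 := by
    have := val_algebraMap x (1 : Ω)
    rwa [map_one] at this
  have hpow : ∀ n : ℕ, 0 ≤ x.ord (j ^ n) ∧ val x (j ^ n) = val x j ^ n := by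
    intro n
    induction n with
    | zero => exact ⟨by rw [pow_zero, Place.ord_one], by rw [pow_zero, pow_zero, h1]⟩
    | succ n ih =>
      refine ⟨?_, by rw [pow_succ, pow_succ, val_mul x ih.1 hj, ih.2]⟩
      by_cases hj0 : j = 0
      · rw [hj0, zero_pow (Nat.succ_ne_zero n), Place.ord_zero]
      · rw [pow_succ, Place.ord_mul x (pow_ne_zero n hj0) hj0]
        exact add_nonneg ih.1 hj
  have hgi : x.ord g⁻¹ = 0 := by rw [Place.ord_inv, hg, neg_zero]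
  have h2 : val x g * val x g⁻¹ = 1 := by
    rw [← val_mul x hg.ge hgi.ge, mul_inv_cancel₀ hg0, h1]
  rw [div_eq_mul_inv, val_mul x (hpow n).1 hgi.ge, (hpow n).2, div_eq_mul_inv,
    eq_inv_of_mul_eq_one_right h2]

/-- **MOD.** -/
theorem point {p : ℕ} [NeZero p] (hp : p.Prime) (hp2 : p ≠ 2)
    (C : CuspData p (modularFunctionFieldBar p)) (W : WeierstrassCurve ℤ) (hΔ : W.Δ ≠ 0)
    (Q : ((W.map (Int.castRingHom ℚ))⁄(AlgebraicClosure ℚ)).Point)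
    (hfix : ∀ σ : AlgebraicClosure ℚ ≃ₐ[ℚ] AlgebraicClosure ℚ, σ • Q = Q) (hQ : addOrderOf Q = p)
    {q₀ : ℕ} (hq₀ : q₀.Prime) (hq₀p : q₀ ≠ p) (hq₀Δ : (q₀ : ℤ) ∣ W.Δ) (hq₀c : ¬ (q₀ : ℤ) ∣ W.c₄)
    (A₀ : ValuationSubring (AlgebraicClosure ℚ)) (hA₀ : A₀.LiesOverPrime q₀)
    (hn : ¬ W.InZeroComponentAt A₀ Q)
    {ℓ' : ℕ} (hℓ' : ℓ'.Prime) (hℓ'2 : ℓ' ≠ 2) (hℓ'p : ℓ' ≠ p) (hℓ'Δ : (ℓ' : ℤ) ∣ W.Δ)
    (hℓ'c : ¬ (ℓ' : ℤ) ∣ W.c₄)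
    (A' : ValuationSubring (AlgebraicClosure ℚ)) (hA' : A'.LiesOverPrime ℓ')
    (hz : W.InZeroComponentAt A' Q) :
    ∃ y : JZero p, (∀ σ : GQ, σ • y = y) ∧ y ∈ K1q p q₀ A₀ ∧ y + C.c₀ ∈ K1q p ℓ' A' := by
  have hc₄ : W.c₄ ≠ 0 := fun h => hℓ'c (h ▸ dvd_zero _)
  obtain ⟨x, hx, hxj, hxg0, hxg⟩ :=
    Top_exists_place hp hp2 C W hΔ hc₄ (Top_c₆_ne_zero W hℓ' hℓ'Δ hℓ'c) Q hQ
  have hj' : val x C.j ∉ A' := by
    rw [hxj]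
    exact Loc.jW_not_mem hΔ hℓ' hℓ'Δ hℓ'c hA'
  have hj₀ : val x C.j ∉ A₀ := by
    rw [hxj]
    exact Loc.jW_not_mem hΔ hq₀ hq₀Δ hq₀c hA₀
  have hg' : val x C.g ∉ A' := by
    rw [hxg]
    exact Loc.gam_not_mem hΔ hp hp2 hQ hℓ' hℓ'2 hℓ'p hℓ'Δ A' hA' hz
  have hg₀ : val x (C.j ^ (p - 1) / C.g) ∉ A₀ := by
    rw [Top_val_pow_div x hx C.g_ne_zero hxg0, hxj, hxg]
    exact Loc.div_gam_not_mem hΔ hp hp2 hQ hq₀ hq₀p hq₀c A₀ hA₀ hn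
  have hσ : ∀ σ : GQ, gq p σ • x = x := fun σ =>
    smul_place_eq hp hℓ' hℓ'p A' hA' C hx hj' hg' σ (by rw [hxj]; exact Loc.jW_fix W σ)
      (by rw [hxg]; exact Loc.gam_fix σ (hfix σ))
  refine ⟨ptCls x C.zero, fun σ => ?_, mem_K1q_zero hp hq₀ hq₀p A₀ hA₀ C hx hj₀ hg₀, ?_⟩
  · rw [smul_ptCls, hσ σ, C.smul_zero σ (gq p σ) (coe_gq_smul p σ)]
  · rw [← ptCls_zero_inf, ptCls_add]
    exact mem_K1q_inf hp hℓ' hℓ'p A' hA' C hx hj' hg'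

/-- a `G_ℚ`-fixed element of `K1q p q A` lies in `J1`. -/
theorem Top_mem_J1 {p : ℕ} [NeZero p] {q lam : ℕ} (hq : q.Prime) (hlam : lam.Prime)
    (hql : q ≠ lam) (A : ValuationSubring Qb) (hA : A.LiesOverPrime q) {y : JZero p}
    (hy : ∀ σ : GQ, σ • y = y) (hm : y ∈ K1q p q A) : y ∈ Atl.J1 (Kfam p) lam A := by
  rw [Atl.J1_of_not_liesOver _ (fun h => hql (prime_unique hq hlam hA h)), Atl.mem_J1D]
  intro δ _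
  rw [hy δ, Kfam_eq p hq hA]
  exact hm

/-- **MOD, in the shape of `GeomPoint`** (`Top.lean`): `B.J1 = Atl.J1 (Red.Kfam p) lam`,
`B.c = m • C.c₀`. -/
theorem geomPoint {p : ℕ} [NeZero p] (hp : p.Prime) (hp' : p ∉ ({2, 3, 5, 7, 13} : Finset ℕ))
    (C : CuspData p (modularFunctionFieldBar p)) (m : ℕ) {lam : ℕ} (hlam : lam.Prime) :
    ∀ (W : WeierstrassCurve ℤ), W.Δ ≠ 0 →
    ∀ Q : ((W.map (Int.castRingHom ℚ))⁄(AlgebraicClosure ℚ)).Point,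
    (∀ σ : AlgebraicClosure ℚ ≃ₐ[ℚ] AlgebraicClosure ℚ, σ • Q = Q) → addOrderOf Q = p →
    ∀ (q₀ : ℕ), (q₀ = 2 ∨ q₀ = 3) → q₀ ≠ lam → (q₀ : ℤ) ∣ W.Δ → ¬ (q₀ : ℤ) ∣ W.c₄ →
    ∀ A₀ : ValuationSubring (AlgebraicClosure ℚ), A₀.LiesOverPrime q₀ →
      ¬ W.InZeroComponentAt A₀ Q →
    ∀ (ℓ' : ℕ), ℓ'.Prime → 5 ≤ ℓ' → ℓ' ≠ p → ℓ' ≠ lam → (ℓ' : ℤ) ∣ W.Δ → ¬ (ℓ' : ℤ) ∣ W.c₄ →
    ∀ A' : ValuationSubring (AlgebraicClosure ℚ), A'.LiesOverPrime ℓ' →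
      W.InZeroComponentAt A' Q →
    ∃ y : JZero p, (∀ σ : GQ, σ • y = y) ∧ y ∈ Atl.J1 (Kfam p) lam A₀ ∧
      y + m • (C.c₀ : JZero p) ∈ Atl.J1 (Kfam p) lam A' := by
  intro W hΔ Q hfix hQ q₀ hq₀ hq₀l hq₀Δ hq₀c A₀ hA₀ hn ℓ' hℓ' h5 hℓ'p hℓ'l hℓ'Δ hℓ'c A' hA' hz
  have hq₀' : q₀.Prime := by
    rcases hq₀ with rfl | rfl
    · exact Nat.prime_two
    · exact Nat.prime_three
  have hq₀p : q₀ ≠ p := by
    rintro rfl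
    rcases hq₀ with rfl | rfl <;> simp at hp'
  have hp2 : p ≠ 2 := by
    rintro rfl
    simp at hp'
  obtain ⟨y, hy1, hy2, hy3⟩ := point hp hp2 C W hΔ Q hfix hQ hq₀' hq₀p hq₀Δ hq₀c A₀ hA₀ hn hℓ'
    (by omega) hℓ'p hℓ'Δ hℓ'c A' hA' hz
  have hc : ∀ σ : GQ, σ • (C.c₀ : JZero p) = C.c₀ := galois_smul_c₀ C
  have hsm : ∀ (σ : GQ) (z : JZero p), σ • (m • z) = m • (σ • z) := fun σ z =>
    map_nsmul (DistribMulAction.toAddMonoidHom (JZero p) σ) m z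
  refine ⟨m • y, fun σ => by rw [hsm, hy1 σ], ?_, ?_⟩
  · exact Top_mem_J1 hq₀' hlam hq₀l A₀ hA₀ (fun σ => by rw [hsm, hy1 σ])
      (AddSubgroup.nsmul_mem _ hy2 m)
  · rw [← nsmul_add]
    exact Top_mem_J1 hℓ' hlam hℓ'l A' hA'
      (fun σ => by rw [hsm, smul_add, hy1 σ, hc σ]) (AddSubgroup.nsmul_mem _ hy3 m)

end Fermat.Agent.S15.Mod
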