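import Fermat.Agent.S15.Mod.Top
import Fermat.Agent.S15.Geom.Main

/-!
# S15 / MOD : the input `PtIn` of `Geom.geom_of`
-/

set_option autoImplicit false

namespace Fermat.Agent.S15.Mod

theorem ptIn : Geom.PtIn := by
  intro p _ hp hp' W hΔ Q hfix hQ q₀ hq₀ hq₀Δ hq₀c A₀ hA₀ hn ℓ' hℓ' h5 hℓ'p hℓ'Δ hℓ'c A' hA' hz
  have hq₀' : q₀.Prime := by
    rcases hq₀ with rfl | rfl
    · exact Nat.prime_two
    · exact Nat.prime_three
  have hq₀p : q₀ ≠ p := by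
    rintro rfl
    rcases hq₀ with rfl | rfl <;> simp at hp'
  have hp2 : p ≠ 2 := by
    rintro rfl
    simp at hp'
  exact point hp hp2 (Cusp.cuspData p hp) W hΔ Q hfix hQ hq₀' hq₀p hq₀Δ hq₀c A₀ hA₀ hn hℓ'
    (by omega) hℓ'p hℓ'Δ hℓ'c A' hA' hz

end Fermat.Agent.S15.Mod
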